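import Fermat.Agent.PIC.Lang
import Fermat.Agent.HeckeRed.Spec
import Fermat.Agent.TorsInj.Nonspecial
import Fermat.Agent.TorsInj.DeuringTors
import Fermat.Agent.FunField.AlgClosed

/-!
# Finiteness of the group of divisor classes fixed by a Frobenius automorphism
-/

set_option autoImplicit false

noncomputable section

open AlgebraicCurve Module

namespace Fermat.Agent.PIC

open Fermat.Agent.FunField Fermat.Agent.FunField.PlaceLemmas Fermat.Agent.TorsInj
  Fermat.Agent.HeckeRed

variable {K F : Type*} [Field K] [Field F] [Algebra K F]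

open SemilinearAut

theorem mk_sub (D E : Divisor.degZero (K := K) (F := F)) :
    Pic0.mk (D - E) = Pic0.mk D - Pic0.mk E := rfl

section Fixed

variable [IsAlgClosed K] [IsFF K F]

/-- finiteness of the set of places fixed by a Frobenius automorphism -/
theorem finite_fixed_places (g : SemilinearAut K F) {Q : ℕ} (hQ : 2 ≤ Q)
    (hg : ∀ a : K, g • algebraMap K F a = algebraMap K F (a ^ Q)) {t : F}
    (ht : Transcendental K t) (hgt : g • t = t) : {P : Place K F | g • P = P}.Finite := by
  classical
  let R : Polynomial K := Polynomial.X ^ Q - Polynomial.X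
  have hR0 : R ≠ 0 := by
    refine Polynomial.Monic.ne_zero ?_
    exact Polynomial.monic_X_pow_sub (by rw [Polynomial.degree_X]; exact_mod_cast hQ)
  have hne : ∀ a : K, t - algebraMap K F a ≠ 0 := by
    intro a h
    rw [sub_eq_zero] at h
    exact ht (h ▸ isAlgebraic_algebraMap a)
  have hfin : (((divOf t : Divisor K F).support : Set (Place K F)) ∪
      ⋃ a ∈ R.roots.toFinset, ((divOf (t - algebraMap K F a) : Divisor K F).support :
        Set (Place K F))).Finite := by
    refine (Finset.finite_toSet _).union ?_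
    exact Set.Finite.biUnion (Finset.finite_toSet _) fun a _ => Finset.finite_toSet _
  refine hfin.subset ?_
  intro P hP
  rcases exists_ord_sub_pos_or ht P with h | h
  · obtain ⟨a, ha⟩ := h
    right
    have h1 : P.ord (g • (t - algebraMap K F a)) = P.ord (t - algebraMap K F a) := by
      conv_lhs => rw [← show g • P = P from hP]
      exact ord_smul g P _
    have h2 : g • (t - algebraMap K F a) = t - algebraMap K F (a ^ Q) := by
      rw [smul_sub, hgt, hg]
    rw [h2] at h1
    have h3 : a ^ Q = a := eq_of_ord_sub_pos P (h1 ▸ ha) ha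
    refine Set.mem_biUnion (x := a) ?_ ?_
    · rw [Finset.mem_coe, Multiset.mem_toFinset, Polynomial.mem_roots hR0, Polynomial.IsRoot.def,
        Polynomial.eval_sub, Polynomial.eval_pow, Polynomial.eval_X, h3, sub_self]
    · rw [Finset.mem_coe, Finsupp.mem_support_iff, divOf_apply]
      exact ha.ne'
  · left
    rw [Finset.mem_coe, Finsupp.mem_support_iff, divOf_apply]
    exact h.ne

/-- finiteness of the set of stable effective divisors of given degree -/
theorem finite_stable_divisors (g : SemilinearAut K F) {q : ℕ} (hq : 2 ≤ q)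
    (hg : ∀ a : K, g • algebraMap K F a = algebraMap K F (a ^ q)) {t : F}
    (ht : Transcendental K t) (hgt : g • t = t) (d : ℕ) :
    {E : Divisor K F | 0 ≤ E ∧ Divisor.degree E = d ∧ g • E = E}.Finite := by
  classical
  -- powers of `g`
  have hpow : ∀ j : ℕ, (∀ a : K, g ^ j • algebraMap K F a = algebraMap K F (a ^ (q ^ j))) ∧
      g ^ j • t = t := by
    intro j
    induction j with
    | zero => simp
    | succ j ih =>
      refine ⟨fun a => ?_, ?_⟩
      · rw [pow_succ', mul_smul, ih.1, hg, ← pow_mul, ← pow_succ]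
      · rw [pow_succ', mul_smul, ih.2, hgt]
  let Fx : Set (Place K F) := ⋃ j ∈ Finset.Icc 1 d, {P : Place K F | g ^ j • P = P}
  have hFx : Fx.Finite := by
    refine Set.Finite.biUnion (Finset.finite_toSet _) fun j hj => ?_
    have hj1 : 1 ≤ j := (Finset.mem_Icc.mp hj).1
    exact finite_fixed_places (g ^ j) (Q := q ^ j) (by
      calc 2 ≤ q := hq
        _ = q ^ 1 := (pow_one q).symm
        _ ≤ q ^ j := Nat.pow_le_pow_right (by omega) hj1) (hpow j).1 ht (hpow j).2
  -- the support of a stable divisor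
  have hsupp : ∀ E : Divisor K F, 0 ≤ E → Divisor.degree E = d → g • E = E →
      (∀ P ∈ E.support, P ∈ Fx) ∧ ∀ P, E P ≤ d := by
    intro E hE hdeg hgE
    have hdeg' : ∑ P ∈ E.support, E P = d := by
      rw [← hdeg, degree_eq_sum]
      simp only [Finsupp.sum, Deuring.deg_eq_one, Nat.cast_one, mul_one]
    have hle : ∀ P, E P ≤ d := by
      intro P
      by_cases hP : P ∈ E.support
      · rw [← hdeg']
        exact Finset.single_le_sum (fun Q _ => hE Q) hP
      · rw [Finsupp.notMem_support_iff.mp hP]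
        positivity
    have hcard : (E.support.card : ℤ) ≤ d := by
      rw [← hdeg', Finset.card_eq_sum_ones, Nat.cast_sum]
      refine Finset.sum_le_sum fun P hP => ?_
      have h1 : E P ≠ 0 := Finsupp.mem_support_iff.mp hP
      have h2 : 0 ≤ E P := hE P
      push_cast
      omega
    refine ⟨fun P hP => ?_, hle⟩
    have hgp : ∀ j : ℕ, E (g ^ j • P) = E P := by
      intro j
      induction j with
      | zero => rw [pow_zero, one_smul]
      | succ j ih =>
        rw [pow_succ', mul_smul, ← ih]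
        conv_lhs => rw [← hgE]
        rw [divisor_smul_apply_smul]
    have hmem : ∀ j : ℕ, g ^ j • P ∈ E.support := fun j => by
      rw [Finsupp.mem_support_iff, hgp]
      exact Finsupp.mem_support_iff.mp hP
    obtain ⟨i, hi, j, hj, hij, he⟩ : ∃ i ∈ Finset.range (d + 1), ∃ j ∈ Finset.range (d + 1),
        i ≠ j ∧ g ^ i • P = g ^ j • P := by
      apply Finset.exists_ne_map_eq_of_card_lt_of_maps_to (t := E.support)
      · rw [Finset.card_range]
        omega
      · intro j _
        exact hmem j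
    rw [Finset.mem_range] at hi hj
    wlog hlt : i < j generalizing i j
    · exact this j hj i hi (Ne.symm hij) he.symm (by omega)
    refine Set.mem_biUnion (x := j - i) (Finset.mem_Icc.mpr ⟨by omega, by omega⟩) ?_
    show g ^ (j - i) • P = P
    have h1 : g ^ i • (g ^ (j - i) • P) = g ^ i • P := by
      rw [← mul_smul, ← pow_add, he]
      congr 2
      omega
    exact MulAction.injective (g ^ i) h1
  -- finiteness
  have : Finite Fx := hFx.to_subtype
  have := Fintype.ofFinite Fx
  let Φ : {E : Divisor K F | 0 ≤ E ∧ Divisor.degree E = d ∧ g • E = E} → (Fx → Finset.Icc (0 : ℤ) d) :=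
    fun E P => ⟨E.1 P, Finset.mem_Icc.mpr ⟨E.2.1 P, (hsupp E.1 E.2.1 E.2.2.1 E.2.2.2).2 P⟩⟩
  have hΦ : Function.Injective Φ := by
    intro E E' h
    apply Subtype.ext
    ext P
    by_cases hP : P ∈ Fx
    · exact congrArg Subtype.val (congrFun h ⟨P, hP⟩)
    · have h1 : P ∉ E.1.support := fun h => hP ((hsupp E.1 E.2.1 E.2.2.1 E.2.2.2).1 P h)
      have h2 : P ∉ E'.1.support := fun h => hP ((hsupp E'.1 E'.2.1 E'.2.2.1 E'.2.2.2).1 P h)
      rw [Finsupp.notMem_support_iff.mp h1, Finsupp.notMem_support_iff.mp h2]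
  have hfin : Finite {E : Divisor K F | 0 ≤ E ∧ Divisor.degree E = d ∧ g • E = E} :=
    Finite.of_injective Φ hΦ
  exact Set.toFinite _

/-- a class fixed by Frobenius is represented by a fixed divisor (Lang) -/
theorem exists_stable (g : SemilinearAut K F) {q : ℕ} (hq : 2 ≤ q)
    (hg : ∀ a : K, g • algebraMap K F a = algebraMap K F (a ^ q)) (D₀ : Divisor K F)
    (hD₀ : g • D₀ = D₀) (hdeg : (genusFF K F : ℤ) ≤ Divisor.degree D₀)
    (D : Divisor.degZero (K := K) (F := F)) (hD : g • Pic0.mk D = Pic0.mk D) :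
    ∃ E : Divisor K F, 0 ≤ E ∧ Divisor.degree E = Divisor.degree D₀ ∧ g • E = E ∧
      (D : Divisor K F) - (E - D₀) ∈ Divisor.principal (K := K) (F := F) := by
  have hD0 : Divisor.degree (D : Divisor K F) = 0 := D.2
  -- an effective representative
  have h1 : 0 < finrank K (riemannRochSpace ((D : Divisor K F) + D₀)) := by
    have := riemann_ineq ((D : Divisor K F) + D₀)
    rw [map_add, hD0] at this
    omega
  have hnt := Module.nontrivial_of_finrank_pos h1
  obtain ⟨⟨f, hf⟩, hf0'⟩ := exists_ne (0 : riemannRochSpace ((D : Divisor K F) + D₀))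
  have hf0 : f ≠ 0 := fun h => hf0' (Subtype.ext h)
  rw [mem_rr_iff_divOf hf0] at hf
  set E₀ : Divisor K F := (D : Divisor K F) + D₀ + divOf f with hE₀
  have hprinc : (D : Divisor K F) - (E₀ - D₀) = divOf f⁻¹ := by
    rw [hE₀, divOf_inv]; abel
  -- the defect
  rw [pic0_smul_mk, ← sub_eq_zero, ← mk_sub, mk_eq_zero_iff', AddSubgroup.coe_sub,
    coe_degZeroSMulHom] at hD
  obtain ⟨h₀, hh₀, hh₀'⟩ := hD
  have hgD : g • (D : Divisor K F) = (D : Divisor K F) + divOf h₀ := by
    have : g • (D : Divisor K F) - (D : Divisor K F) = divOf h₀ := by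
      ext v
      rw [hh₀', divOf_apply]
    rw [← this]; abel
  set h : F := h₀ * ((g • f) * f⁻¹) with hh
  have hgf0 : g • f ≠ 0 := (smul_ne_zero_iff_ne g).mpr hf0
  have hh0 : h ≠ 0 := mul_ne_zero hh₀ (mul_ne_zero hgf0 (inv_ne_zero hf0))
  have hgE : g • E₀ = E₀ + divOf h := by
    rw [hE₀, smul_add, smul_add, hgD, hD₀, hh, divOf_mul hh₀ (mul_ne_zero hgf0 (inv_ne_zero hf0)),
      divOf_mul hgf0 (inv_ne_zero hf0), divOf_inv, divOf_smul]
    abel
  -- the semilinear map
  have hmem : ∀ x ∈ riemannRochSpace E₀, h * (g • x) ∈ riemannRochSpace E₀ := by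
    intro x hx
    by_cases hx0 : x = 0
    · rw [hx0, smul_zero, mul_zero]
      exact Submodule.zero_mem _
    · have hgx : g • x ≠ 0 := (smul_ne_zero_iff_ne g).mpr hx0
      rw [mem_rr_iff_divOf hx0] at hx
      rw [mem_rr_iff_divOf (mul_ne_zero hh0 hgx), divOf_mul hh0 hgx, divOf_smul]
      have h2 : E₀ + (divOf h + g • divOf x) = g • (E₀ + divOf x) := by
        rw [smul_add, hgE]; abel
      rw [h2]
      intro v
      rw [divisor_smul_apply]
      exact hx _
  let φ : riemannRochSpace E₀ →+ riemannRochSpace E₀ :=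
    { toFun := fun x => ⟨h * (g • (x : F)), hmem x x.2⟩
      map_zero' := Subtype.ext (by
        show h * (g • (0 : F)) = 0
        rw [smul_zero, mul_zero])
      map_add' := fun x y => Subtype.ext (by
        show h * (g • ((x : F) + y)) = h * (g • (x : F)) + h * (g • (y : F))
        rw [smul_add, mul_add]) }
  have hφ : ∀ (a : K) (x : riemannRochSpace E₀), φ (a • x) = a ^ q • φ x := by
    intro a x
    apply Subtype.ext
    show h * (g • (a • (x : F))) = a ^ q • (h * (g • (x : F)))
    rw [Algebra.smul_def, smul_mul', hg, Algebra.smul_def]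
    ring
  have hinj : Function.Injective φ := by
    rw [injective_iff_map_eq_zero]
    intro x hx
    have h2 : h * (g • (x : F)) = 0 := congrArg Subtype.val hx
    have h3 : g • (x : F) = 0 := (mul_eq_zero.mp h2).resolve_left hh0
    exact Subtype.ext ((smul_eq_zero_iff_eq g).mp h3)
  have hone : (1 : F) ∈ riemannRochSpace E₀ := by
    rw [mem_rr_iff_divOf one_ne_zero]
    have : (divOf (1 : F) : Divisor K F) = 0 := by
      rw [← map_one (algebraMap K F)]
      exact divOf_algebraMap 1
    rw [this, add_zero]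
    exact hf
  have : Nontrivial (riemannRochSpace E₀) := ⟨⟨⟨1, hone⟩, 0, fun h => one_ne_zero
    (congrArg Subtype.val h)⟩⟩
  obtain ⟨x, hx0, hx⟩ := exists_fixed hq φ hφ hinj
  have hx0' : (x : F) ≠ 0 := fun h => hx0 (Subtype.ext h)
  have hx' : h * (g • (x : F)) = x := congrArg Subtype.val hx
  have hgx : g • (x : F) ≠ 0 := (smul_ne_zero_iff_ne g).mpr hx0'
  refine ⟨E₀ + divOf (x : F), (mem_rr_iff_divOf hx0').mp x.2, ?_, ?_, ?_⟩
  · rw [map_add, degree_divOf, hE₀, map_add, map_add, degree_divOf, hD0]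
    ring
  · rw [smul_add, hgE, ← divOf_smul, add_assoc, ← divOf_mul hh0 hgx, hx']
  · have h4 : (D : Divisor K F) - (E₀ + divOf (x : F) - D₀) = divOf (f⁻¹ * (x : F)⁻¹) := by
      rw [divOf_mul (inv_ne_zero hf0) (inv_ne_zero hx0'), ← hprinc, divOf_inv]; abel
    rw [h4]
    exact ⟨f⁻¹ * (x : F)⁻¹, mul_ne_zero (inv_ne_zero hf0) (inv_ne_zero hx0'), fun v =>
      divOf_apply _ v⟩

/-- **Finiteness of the group of classes fixed by a Frobenius automorphism.** -/
theorem finite_fixed_classes (g : SemilinearAut K F) {q : ℕ} (hq : 2 ≤ q)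
    (hg : ∀ a : K, g • algebraMap K F a = algebraMap K F (a ^ q)) {t : F}
    (ht : Transcendental K t) (hgt : g • t = t) : {s : Pic0 K F | g • s = s}.Finite := by
  classical
  set e : ℤ := Divisor.degree (poleDiv t : Divisor K F) with he
  have he1 : 1 ≤ e := by
    rw [he, degree_poleDiv ht]
    have : FiniteDimensional (IntermediateField.adjoin K {t}) F :=
      finiteDimensional_adjoin_of_isFF ht
    exact_mod_cast Module.finrank_pos
  set n : ℕ := genusFF K F with hn
  let D₀ : Divisor K F := n • poleDiv t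
  have hD₀ : g • D₀ = D₀ := by
    have : g • (poleDiv t : Divisor K F) = poleDiv t := by
      ext v
      rw [divisor_smul_apply, poleDiv_apply, poleDiv_apply]
      have h := ord_smul g (g⁻¹ • v) t
      rw [smul_inv_smul, hgt] at h
      rw [h]
    show g • (n • (poleDiv t : Divisor K F)) = n • poleDiv t
    rw [smul_comm, this]
  have hdeg : Divisor.degree D₀ = ((n * e.toNat : ℕ) : ℤ) := by
    show Divisor.degree (n • (poleDiv t : Divisor K F)) = _
    rw [map_nsmul, ← he, nsmul_eq_mul]
    push_cast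
    rw [Int.toNat_of_nonneg (by omega)]
  have hle : (genusFF K F : ℤ) ≤ Divisor.degree D₀ := by
    rw [hdeg, ← hn]
    push_cast
    rw [Int.toNat_of_nonneg (by omega)]
    nlinarith [Int.natCast_nonneg n]
  have hfin := finite_stable_divisors g hq hg ht hgt (n * e.toNat)
  let S := {E : Divisor K F | 0 ≤ E ∧ Divisor.degree E = ((n * e.toNat : ℕ) : ℤ) ∧ g • E = E}
  have hS : Finite S := hfin.to_subtype
  let Ψ : S → Pic0 K F := fun E => Pic0.mk ⟨E.1 - D₀, by
    rw [Divisor.mem_degZero, map_sub, E.2.2.1, hdeg, sub_self]⟩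
  refine (Set.finite_range Ψ).subset ?_
  intro s hs
  obtain ⟨D, rfl⟩ := Pic0.mk_surjective s
  obtain ⟨E, hE1, hE2, hE3, hE4⟩ := exists_stable g hq hg D₀ hD₀ hle D hs
  refine ⟨⟨E, hE1, by rw [hE2, hdeg], hE3⟩, ?_⟩
  rw [← sub_eq_zero, ← neg_eq_zero, neg_sub, ← mk_sub, mk_eq_zero_iff', AddSubgroup.coe_sub]
  exact hE4

end Fixed

end Fermat.Agent.PIC
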