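import Fermat.Agent.PIC.CharZero
import Fermat.Agent.PIC.Finite
import Fermat.Agent.HeckeRed.Package
import Fermat.Agent.Frob.Exists

/-!
# Relations in the Hecke algebra kill the `p`-power torsion of `Pic⁰` of `X₀(N)` modulo `p`
-/

set_option autoImplicit false

noncomputable section

namespace Fermat.Agent.PIC

open AlgebraicCurve ModularCurve CongruenceSubgroup
open Fermat.Agent.HeckeHom Fermat.Agent.Tate Fermat.Agent.HeckeRed Fermat.Agent.FunField
  Fermat.Agent.ModDeg Fermat.Agent.ModPoly Fermat.Agent.Deuring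

section Defs

variable (κ : Type*) [Field κ] [IsAlgClosed κ] (N : ℕ) [NeZero N]

/-- Hecke operators on `Pic⁰` of the modular curve over `κ` -/
def heckeC (q : ℕ) [NeZero q] : Pic0 κ (modularFunctionFieldFullC κ N) →+
    Pic0 κ (modularFunctionFieldFullC κ N) :=
  Pic0.correspondence (beta1 κ N q) (alpha1 κ N q) (isIntegral_of_isFF (beta1 κ N q))
    (isIntegral_of_isFF (alpha1 κ N q))
    (fundamentalIdentityAlong _ _ (finiteAlong_of_isFF (beta1 κ N q)))
    (finiteAlong_of_isFF (alpha1 κ N q)) (normFormulaAlong _ _)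

variable (S : Set ℕ)

/-- action of the free algebra on `Pic⁰` -/
def actC : FreeAlgebra ℤ (Idx N S) →ₐ[ℤ] Module.End ℤ (Pic0 κ (modularFunctionFieldFullC κ N)) :=
  FreeAlgebra.lift ℤ fun i =>
    (haveI : NeZero i.1 := ⟨i.2.1.ne_zero⟩
    heckeC κ N i.1).toIntLinearMap

theorem actC_ι (i : Idx N S) [NeZero i.1] (x : Pic0 κ (modularFunctionFieldFullC κ N)) :
    actC κ N S (FreeAlgebra.ι ℤ i) x = heckeC κ N i.1 x := by
  rw [actC, FreeAlgebra.lift_ι_apply]
  rfl

end Defs

section Sp

variable {L k F F₁ : Type*} [Field L] [Field k] [Field F] [Field F₁] [Algebra L F]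
  [Algebra k F₁] [IsFF L F] [IsFF k F₁] [IsAlgClosed L] [IsAlgClosed k]
  {𝔇 : Data L k F F₁} {r : Place L F → Place k F₁}

theorem spHom_surjective (hr : IsReduction 𝔇 r) : Function.Surjective (spHom hr) := by
  have h1 : 𝔇.IsRed r := ⟨hr.div⟩
  have hs : Function.Surjective r := h1.surjective
  choose s hs using hs
  intro x
  obtain ⟨D, rfl⟩ := Pic0.mk_surjective x
  have hD : Finsupp.mapDomain r (Finsupp.mapDomain s (D : Divisor k F₁)) = D := by
    rw [← Finsupp.mapDomain_comp]
    have : r ∘ s = id := funext hs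
    rw [this, Finsupp.mapDomain_id]
  refine ⟨Pic0.mk ⟨Finsupp.mapDomain s (D : Divisor k F₁), ?_⟩, ?_⟩
  · rw [Divisor.mem_degZero, ← HeckeRed.degree_mapDomain r, hD]
    exact D.2
  · rw [spHom_mk]
    exact congrArg Pic0.mk (Subtype.ext hD)

end Sp

section Concrete

variable {L : Type*} [Field L] [Algebra ℚ L] [IsAlgClosed L] (A : ValuationSubring L)
  {κ : Type*} [Field κ] [IsAlgClosed κ] (π : A →+* κ) [IsLocalHom π] (hπ : Function.Surjective π)
  (N : ℕ) [NeZero N] (hN : (N : κ) ≠ 0)

variable {r : Place L (laurentBaseChange L (modularFunctionFieldFull N)) →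
  Place κ (modularFunctionFieldFullC κ N)} (hr : IsReduction (dat A π hπ N hN) r)

/-- specialization commutes with Hecke operators away from the residue characteristic -/
theorem spHom_hecke (q : ℕ) [hq : Fact q.Prime] (hqκ : ((N * q : ℕ) : κ) ≠ 0)
    (x : Pic0 L (laurentBaseChange L (modularFunctionFieldFull N))) :
    spHom hr (heckeOperatorAlong L N q x) = heckeC κ N q (spHom hr x) := by
  have : CharZero L := algebraRat.charZero L
  have hL : ((N * q : ℕ) : L) ≠ 0 :=
    Nat.cast_ne_zero.mpr (mul_ne_zero (NeZero.ne N) hq.out.ne_zero)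
  rw [heckeOperatorAlong_apply]
  exact abs_spHom_corr (isGauss_dat A π hπ N hN) (isGauss_dat A π hπ (N * q) hqκ) hr
    (laurentBaseChange_full L N) (laurentBaseChange_full L (N * q)) hL (heckeAlphaBar L N q)
    (heckeBetaBar L N q) (coe_heckeAlphaBar N q) (coe_heckeBetaBar N q) (betaInt L N q)
    (alphaInt L N q) (fundamentalIdentityAlong _ _ (finiteAlong_of_isFF _))
    (finiteAlong_of_isFF _) (normFormulaAlong _ _) rfl rfl hqκ (alpha1 κ N q) (beta1 κ N q)
    (coe_alpha1 κ N q) (coe_beta1 κ N q) x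

end Concrete

section Qbar

variable {N : ℕ} [NeZero N] {p : ℕ} [hp : Fact p.Prime] (hpN : ¬ p ∣ N)
  (A : ValuationSubring (AlgebraicClosure ℚ)) {κ : Type} [Field κ] [IsAlgClosed κ] [CharP κ p]
  (π : A →+* κ) [IsLocalHom π] (hπ : Function.Surjective π) (hN : (N : κ) ≠ 0)
  {r : Place (AlgebraicClosure ℚ) (laurentBaseChange (AlgebraicClosure ℚ)
    (modularFunctionFieldFull N)) → Place κ (modularFunctionFieldFullC κ N)}
  (hr : IsReduction (dat A π hπ N hN) r) {S : Set ℕ} (hpS : p ∈ S)

include hpS in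
/-- specialization is equivariant for the free algebra -/
theorem spHom_act (a : FreeAlgebra ℤ (Idx N S)) (x : JZero N) :
    spHom hr (actJ N S a x) = actC κ N S a (spHom hr x) := by
  induction a using FreeAlgebra.induction generalizing x with
  | grade0 c =>
    rw [AlgHom.commutes, AlgHom.commutes, end_intCast_apply, end_intCast_apply]
    exact map_zsmul (spHom hr) c x
  | grade1 i =>
    have h1 : NeZero i.1 := ⟨i.2.1.ne_zero⟩
    have h2 : Fact i.1.Prime := ⟨i.2.1⟩
    rw [actC_ι]
    refine (congrArg (spHom hr) (actJ_ι N S i x)).trans ?_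
    refine (congrArg (spHom hr) (heckeOperatorBar_apply N _ x)).trans ?_
    refine spHom_hecke A π hπ N hN hr i.1 ?_ x
    intro h
    rw [Nat.cast_mul] at h
    rcases mul_eq_zero.mp h with h3 | h3
    · exact hN h3
    · rw [CharP.cast_eq_zero_iff κ p] at h3
      exact i.2.2.2 ((Nat.prime_dvd_prime_iff_eq hp.out i.2.1).mp h3 ▸ hpS)
  | mul a b ha hb =>
    have e1 : ∀ x, actJ N S (a * b) x = actJ N S a (actJ N S b x) := fun x =>
      congrArg (fun f : Module.End ℤ (JZero N) => f x) (map_mul (actJ N S) a b)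
    have e2 : ∀ x, actC κ N S (a * b) x = actC κ N S a (actC κ N S b x) := fun x =>
      congrArg (fun f : Module.End ℤ (Pic0 κ (modularFunctionFieldFullC κ N)) => f x)
        (map_mul (actC κ N S) a b)
    exact (congrArg (spHom hr) (e1 x)).trans ((ha _).trans
      ((congrArg (fun z => actC κ N S a z) (hb x)).trans (e2 _).symm))
  | add a b ha hb =>
    have e1 : ∀ x, actJ N S (a + b) x = actJ N S a x + actJ N S b x := fun x =>
      congrArg (fun f : Module.End ℤ (JZero N) => f x) (map_add (actJ N S) a b)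
    have e2 : ∀ x, actC κ N S (a + b) x = actC κ N S a x + actC κ N S b x := fun x =>
      congrArg (fun f : Module.End ℤ (Pic0 κ (modularFunctionFieldFullC κ N)) => f x)
        (map_add (actC κ N S) a b)
    refine (congrArg (spHom hr) (e1 x)).trans ?_
    refine (map_add (spHom hr) _ _).trans ?_
    exact (congrArg₂ (· + ·) (ha x) (hb x)).trans (e2 _).symm

end Qbar

/-- a power of an automorphism fixes a finite extension pointwise -/
theorem exists_pow_fixes (E : IntermediateField ℚ (AlgebraicClosure ℚ)) [FiniteDimensional ℚ E]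
    (σ : AlgebraicClosure ℚ ≃ₐ[ℚ] AlgebraicClosure ℚ) :
    ∃ m : ℕ, 0 < m ∧ ∀ z ∈ E, (σ ^ m) z = z := by
  let E' := IntermediateField.normalClosure ℚ E (AlgebraicClosure ℚ)
  have : FiniteDimensional ℚ E' := inferInstance
  have : Finite (E' ≃ₐ[ℚ] E') := inferInstance
  have hnQ : Normal ℚ (AlgebraicClosure ℚ) := IsAlgClosure.normal ℚ (AlgebraicClosure ℚ)
  have hn : Normal ℚ E' := normalClosure.normal ℚ E (AlgebraicClosure ℚ)
  refine ⟨Nat.card (E' ≃ₐ[ℚ] E'), Nat.card_pos, fun z hz => ?_⟩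
  have h1 : (AlgEquiv.restrictNormalHom (F := ℚ) E' σ) ^ Nat.card (E' ≃ₐ[ℚ] E') = 1 :=
    pow_card_eq_one'
  rw [← map_pow] at h1
  have hz' : z ∈ E' := IntermediateField.le_normalClosure E hz
  have h2 := AlgEquiv.restrictNormal_commutes (σ ^ Nat.card (E' ≃ₐ[ℚ] E')) E' ⟨z, hz'⟩
  have h3 : (σ ^ Nat.card (E' ≃ₐ[ℚ] E')).restrictNormal E' = 1 := h1
  rw [h3] at h2
  exact h2.symm

end Fermat.Agent.PIC
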