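import Fermat.Agent.Tate.JInput

/-!
# Relations in the Hecke algebra kill the torsion of `J₀(N)`
-/

set_option autoImplicit false

noncomputable section

namespace Fermat.Agent.PIC

open ModularCurve ModularCurve.Period CongruenceSubgroup
open Fermat.Agent.HeckeHom Fermat.Agent.TorsCmp Fermat.Agent.GalJ Fermat.Agent.Tate

variable (N : ℕ) [NeZero N] (S : Set ℕ)

/-- action of the free algebra on `J₀(N)` -/
def actJ : FreeAlgebra ℤ (Idx N S) →ₐ[ℤ] Module.End ℤ (JZero N) :=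
  FreeAlgebra.lift ℤ fun i =>
    (heckeOperatorBar N ⟨i.1, i.2.1⟩ : JZero N →+ JZero N).toIntLinearMap

theorem actJ_ι (i : Idx N S) (x : JZero N) :
    actJ N S (FreeAlgebra.ι ℤ i) x = heckeOperatorBar N ⟨i.1, i.2.1⟩ x := by
  rw [actJ, FreeAlgebra.lift_ι_apply]
  rfl

theorem end_intCast_apply {M : Type*} [AddCommGroup M] (r : ℤ) (x : M) :
    (algebraMap ℤ (Module.End ℤ M) r) x = r • x := by
  rw [eq_intCast, Module.End.intCast_apply]

/-- the Hecke action commutes with Galois -/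
theorem actJ_smul (σ : AlgebraicClosure ℚ ≃ₐ[ℚ] AlgebraicClosure ℚ)
    (a : FreeAlgebra ℤ (Idx N S)) (x : JZero N) : actJ N S a (σ • x) = σ • actJ N S a x := by
  have hf : ∀ y : JZero N, σ • y = DistribSMul.toAddMonoidHom (JZero N) σ y := fun _ => rfl
  induction a using FreeAlgebra.induction generalizing x with
  | grade0 r =>
    rw [AlgHom.commutes, end_intCast_apply, end_intCast_apply, hf, hf, map_zsmul]
  | grade1 i =>
    rw [actJ_ι, actJ_ι]
    exact heckeOperatorBar_smul N _ σ x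
  | mul a b ha hb =>
    rw [map_mul, Module.End.mul_apply, Module.End.mul_apply, hb, ha]
  | add a b ha hb =>
    rw [map_add, LinearMap.add_apply, LinearMap.add_apply, ha, hb, hf, hf, hf, map_add]

variable (p : ℕ) [hp : Fact p.Prime]

/-- component maps of the Tate module -/
def prJ (n : ℕ) : parabolicHoms ℤ_[p] (Gamma0 N) ℤ_[p] →+ tor p (JZero N) n :=
  pr (comparisonJ N p) _ (comparisonJ_mem_iff N p) n

theorem prJ_surjective (n : ℕ) (x : tor p (JZero N) n) : ∃ φ, prJ N p n φ = x := by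
  obtain ⟨y, hy, hyn⟩ := exists_compatible (L := AlgebraicClosure ℚ) iotaQbar N p n x
  obtain ⟨φ, hφ⟩ := exists_lim (comparisonJ N p) _ (comparisonJ_mem_iff N p) y hy
  exact ⟨φ, (hφ n).trans hyn⟩

theorem prJ_actPar (a : FreeAlgebra ℤ (Idx N S)) (n : ℕ)
    (φ : parabolicHoms ℤ_[p] (Gamma0 N) ℤ_[p]) :
    (prJ N p n (actPar N S ℤ_[p] ℤ_[p] a φ) : JZero N) = actJ N S a (prJ N p n φ) := by
  induction a using FreeAlgebra.induction generalizing φ with
  | grade0 r =>
    rw [AlgHom.commutes, AlgHom.commutes, end_intCast_apply]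
    have : (algebraMap ℤ (Module.End ℤ_[p] (parabolicHoms ℤ_[p] (Gamma0 N) ℤ_[p])) r) φ =
        r • φ := by
      rw [eq_intCast, Module.End.intCast_apply]
    rw [this, map_zsmul]
    rfl
  | grade1 i =>
    rw [actJ_ι, actPar, FreeAlgebra.lift_ι_apply]
    have h : prJ N p n (parHecke ℤ_[p] ℤ_[p] i.2.1 i.2.2.1 φ) =
        ⟨heckeOperatorBar N ⟨i.1, i.2.1⟩ (prJ N p n φ), map_mem_tor p
          (heckeOperatorBar N ⟨i.1, i.2.1⟩ : JZero N →+ JZero N) (prJ N p n φ).2⟩ := by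
      refine (pr_eq_iff (comparisonJ N p) _ (comparisonJ_mem_iff N p) n _ _).mpr ?_
      rw [comparisonJ_hecke N p i.2.1 i.2.2.1 n (prJ N p n φ) _ rfl]
      have h1 : (comparisonJ N p).e n (prJ N p n φ) = red n φ :=
        e_pr (comparisonJ N p) _ (comparisonJ_mem_iff N p) n φ
      rw [h1]
      exact heckeHom_comp i.2.1 i.2.2.1 ((PadicInt.toZModPow n : ℤ_[p] →+* ZMod (p ^ n)) :
        ℤ_[p] →+ ZMod (p ^ n)) _
    rw [h]
  | mul a b ha hb =>
    have e1 : actPar N S ℤ_[p] ℤ_[p] (a * b) φ =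
        actPar N S ℤ_[p] ℤ_[p] a (actPar N S ℤ_[p] ℤ_[p] b φ) :=
      congrArg (fun f : Module.End ℤ_[p] (parabolicHoms ℤ_[p] (Gamma0 N) ℤ_[p]) => f φ)
        (map_mul (actPar N S ℤ_[p] ℤ_[p]) a b)
    have e2 : ∀ x, actJ N S (a * b) x = actJ N S a (actJ N S b x) := fun x =>
      congrArg (fun f : Module.End ℤ (JZero N) => f x) (map_mul (actJ N S) a b)
    exact (congrArg (fun z => (prJ N p n z : JZero N)) e1).trans ((ha _).trans
      ((congrArg (fun z => actJ N S a z) (hb φ)).trans (e2 _).symm))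
  | add a b ha hb =>
    have e1 : actPar N S ℤ_[p] ℤ_[p] (a + b) φ =
        actPar N S ℤ_[p] ℤ_[p] a φ + actPar N S ℤ_[p] ℤ_[p] b φ :=
      congrArg (fun f : Module.End ℤ_[p] (parabolicHoms ℤ_[p] (Gamma0 N) ℤ_[p]) => f φ)
        (map_add (actPar N S ℤ_[p] ℤ_[p]) a b)
    have e2 : ∀ x, actJ N S (a + b) x = actJ N S a x + actJ N S b x := fun x =>
      congrArg (fun f : Module.End ℤ (JZero N) => f x) (map_add (actJ N S) a b)
    have e3 : (prJ N p n (actPar N S ℤ_[p] ℤ_[p] a φ + actPar N S ℤ_[p] ℤ_[p] b φ) : JZero N) =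
        (prJ N p n (actPar N S ℤ_[p] ℤ_[p] a φ) : JZero N) +
          prJ N p n (actPar N S ℤ_[p] ℤ_[p] b φ) :=
      congrArg Subtype.val ((prJ N p n).map_add _ _)
    exact (congrArg (fun z => (prJ N p n z : JZero N)) e1).trans (e3.trans
      ((congrArg₂ (· + ·) (ha φ) (hb φ)).trans (e2 _).symm))

/-- **Relations of the Hecke algebra hold on the torsion of the Jacobian.** -/
theorem actJ_eq_zero (hS : ∀ q : ℕ, q.Prime → q ∣ N → q ∈ S) {a : FreeAlgebra ℤ (Idx N S)}
    (ha : toHecke hS a = 0) {x : JZero N} {n : ℕ} (hx : p ^ n • x = 0) : actJ N S a x = 0 := by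
  obtain ⟨φ, hφ⟩ := prJ_surjective N p n ⟨x, (mem_tor p).mpr hx⟩
  have h1 : (prJ N p n φ : JZero N) = x := congrArg Subtype.val hφ
  rw [← h1, ← prJ_actPar, (toHecke_eq_zero_iff (es N) hS ℤ_[p] a).mp ha, LinearMap.zero_apply,
    map_zero]
  rfl

end Fermat.Agent.PIC
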