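import Fermat.Agent.NewPoint.OfChar
import Fermat.Agent.Period.HeckeFinite
import Mathlib.RingTheory.Ideal.MinimalPrime.Basic
import Mathlib.RingTheory.Ideal.GoingUp

/-!
# Lifting residual characters of Hecke algebras to eigenforms
-/

set_option autoImplicit false

noncomputable section

namespace Fermat.Agent.PIC

/-- **Lifting of residual characters** of a commutative ring which is finite and torsion free
over `ℤ`. -/
theorem exists_char_lift {H : Type*} [CommRing H] [Module.Finite ℤ H]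
    (htf : ∀ (n : ℤ) (h : H), n ≠ 0 → n • h = 0 → h = 0) {k : Type*} [Field k] (χ : H →+* k)
    {p : ℕ} (hp : p.Prime) (hkp : (p : k) = 0) :
    ∃ (ψ : H →+* integralClosure ℤ ℂ) (𝔪 : Ideal (integralClosure ℤ ℂ)), 𝔪.IsMaximal ∧
      (p : integralClosure ℤ ℂ) ∈ 𝔪 ∧ ∀ h, ψ h ∈ 𝔪 ↔ χ h = 0 := by
  have hP : (RingHom.ker χ).IsPrime := RingHom.ker_isPrime χ
  obtain ⟨Q, hQmin, hQP⟩ := Ideal.exists_minimalPrimes_le (I := ⊥) (J := RingHom.ker χ) bot_le
  have hQ : Q.IsPrime := hQmin.isPrime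
  have hint : Algebra.IsIntegral ℤ H := Algebra.IsIntegral.of_finite ℤ H
  -- the contraction of `Q` to `ℤ` vanishes
  have hQ0 : ∀ n : ℤ, (n : H) ∈ Q → n = 0 := by
    intro n hn
    by_contra h0
    have hnz : (n : H) ∈ nonZeroDivisors H := by
      rw [mem_nonZeroDivisors_iff_right]
      intro x hx
      refine htf n x h0 ?_
      rw [zsmul_eq_mul, mul_comm]
      exact hx
    have hdisj := Ideal.disjoint_nonZeroDivisors_of_mem_minimalPrimes (p := Q) hQmin
    exact Set.disjoint_left.mp hdisj hn hnz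
  let B := H ⧸ Q
  have hB : IsDomain B := Ideal.Quotient.isDomain Q
  have hintB : Algebra.IsIntegral ℤ B := by
    constructor
    intro x
    obtain ⟨b, rfl⟩ := Ideal.Quotient.mk_surjective x
    exact (hint.isIntegral b).map ((Ideal.Quotient.mk Q).toIntAlgHom)
  obtain ⟨Ψ, hΨ⟩ := Fermat.Agent.NewPoint.exists_ringHom_extension (algebraMap ℤ B)
    (fun x => hintB.isIntegral x) (Int.castRingHom ℂ) (by
      intro n hn
      have h1 : (n : B) = 0 := by
        have := RingHom.mem_ker.mp hn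
        rwa [eq_intCast] at this
      have h2 : (Ideal.Quotient.mk Q) (n : H) = 0 := by rw [map_intCast]; exact h1
      rw [hQ0 n (Ideal.Quotient.eq_zero_iff_mem.mp h2)]
      exact Ideal.zero_mem _)
  -- `Ψ` is injective
  have hΨinj : Function.Injective Ψ := by
    rw [RingHom.injective_iff_ker_eq_bot]
    have hk : (RingHom.ker Ψ).IsPrime := RingHom.ker_isPrime Ψ
    by_contra hne
    obtain ⟨b, hb, hb0⟩ := Submodule.exists_mem_ne_zero_of_ne_bot hne
    obtain ⟨n, hn0, hn⟩ : ∃ n : ℤ, n ≠ 0 ∧ (n : B) ∈ RingHom.ker Ψ := by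
      have h1 : Ideal.comap (algebraMap ℤ B) (RingHom.ker Ψ) ≠ ⊥ :=
        Ideal.comap_ne_bot_of_integral_mem hb0 hb (hintB.isIntegral b)
      obtain ⟨n, hn, hn0⟩ := Submodule.exists_mem_ne_zero_of_ne_bot h1
      refine ⟨n, hn0, ?_⟩
      have := Ideal.mem_comap.mp hn
      rwa [eq_intCast] at this
    have h2 : Ψ (n : B) = 0 := RingHom.mem_ker.mp hn
    rw [map_intCast] at h2
    exact hn0 (Int.cast_eq_zero.mp h2)
  have hmemΨ : ∀ b : B, Ψ b ∈ integralClosure ℤ ℂ := fun b =>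
    (hintB.isIntegral b).map (Ψ.toIntAlgHom)
  let Ψ' : B →+* integralClosure ℤ ℂ := Ψ.codRestrict (integralClosure ℤ ℂ).toSubring hmemΨ
  have hΨ'inj : Function.Injective Ψ' := fun x y h => hΨinj (congrArg Subtype.val h)
  let _ : Algebra B (integralClosure ℤ ℂ) := Ψ'.toAlgebra
  have hint' : Algebra.IsIntegral B (integralClosure ℤ ℂ) := by
    constructor
    intro x
    obtain ⟨P, hPm, hP0⟩ := integralClosure.isIntegral (R := ℤ) (A := ℂ) x
    refine ⟨P.map (algebraMap ℤ B), hPm.map _, ?_⟩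
    rw [Polynomial.eval₂_map]
    have h1 : (algebraMap B (integralClosure ℤ ℂ)).comp (algebraMap ℤ B) =
        algebraMap ℤ (integralClosure ℤ ℂ) := RingHom.ext_int _ _
    rw [h1]
    exact hP0
  -- the prime of `B`
  let PB : Ideal B := (RingHom.ker χ).map (Ideal.Quotient.mk Q)
  have hPB : PB.IsPrime := Ideal.map_isPrime_of_surjective Ideal.Quotient.mk_surjective (by
    rw [Ideal.mk_ker]; exact hQP)
  obtain ⟨𝔪, -, h𝔪, h𝔪P⟩ := Ideal.exists_ideal_over_prime_of_isIntegral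
    (S := integralClosure ℤ ℂ) PB ⊥ (by
      intro x hx
      rw [Ideal.mem_comap, Ideal.mem_bot] at hx
      have : x = 0 := hΨ'inj (hx.trans (map_zero Ψ').symm)
      rw [this]
      exact Ideal.zero_mem _)
  have hmem : ∀ h : H, Ψ' (Ideal.Quotient.mk Q h) ∈ 𝔪 ↔ χ h = 0 := by
    intro h
    have h1 : Ψ' (Ideal.Quotient.mk Q h) ∈ 𝔪 ↔ Ideal.Quotient.mk Q h ∈ PB := by
      rw [← h𝔪P]
      rfl
    rw [h1, ← Ideal.mem_comap, Ideal.comap_map_of_surjective _ Ideal.Quotient.mk_surjective]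
    have h2 : (RingHom.ker χ) ⊔ Ideal.comap (Ideal.Quotient.mk Q) ⊥ = RingHom.ker χ := by
      rw [sup_eq_left]
      intro x hx
      rw [Ideal.mem_comap, Ideal.mem_bot, Ideal.Quotient.eq_zero_iff_mem] at hx
      exact hQP hx
    rw [h2, RingHom.mem_ker]
  have hp𝔪 : (p : integralClosure ℤ ℂ) ∈ 𝔪 := by
    have := (hmem (p : H)).mpr (by rw [map_natCast]; exact hkp)
    rwa [map_natCast, map_natCast] at this
  refine ⟨Ψ'.comp (Ideal.Quotient.mk Q), 𝔪, ?_, hp𝔪, hmem⟩
  have hintZ : Algebra.IsIntegral ℤ (integralClosure ℤ ℂ) := inferInstance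
  refine Ideal.isMaximal_of_isIntegral_of_isMaximal_comap (R := ℤ) 𝔪 ?_
  have h1 : Ideal.span {(p : ℤ)} ≤ Ideal.comap (algebraMap ℤ (integralClosure ℤ ℂ)) 𝔪 := by
    rw [Ideal.span_singleton_le_iff_mem, Ideal.mem_comap]
    simpa using hp𝔪
  have h2 : (Ideal.span {(p : ℤ)}).IsMaximal :=
    PrincipalIdealRing.isMaximal_of_irreducible
      (Nat.prime_iff_prime_int.mp hp).irreducible
  have h3 : Ideal.comap (algebraMap ℤ (integralClosure ℤ ℂ)) 𝔪 ≠ ⊤ :=
    Ideal.comap_ne_top _ h𝔪.ne_top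
  rw [← h2.eq_of_le h3 h1]
  exact h2

end Fermat.Agent.PIC
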