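import Fermat.Agent.PIC.Main
import Fermat.Agent.PIC.Lift
import Fermat.Agent.Cusps.GenusFinal

/-!
# From eigenclasses of order `p` to eigenforms
-/

set_option autoImplicit false

noncomputable section

namespace Fermat.Agent.PIC

open AlgebraicCurve ModularCurve CongruenceSubgroup CuspForm ModularFormClass
open Fermat.Agent.HeckeHom Fermat.Agent.Tate Fermat.Agent.HeckeRed Fermat.Agent.FunField

variable {N : ℕ} [NeZero N] {S : Set ℕ}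

/-- evaluation of the free algebra at a system of integers -/
def evI (a : ℕ → ℤ) : FreeAlgebra ℤ (Idx N S) →ₐ[ℤ] ℤ := FreeAlgebra.lift ℤ fun i => a i.1

omit [NeZero N] in
theorem evI_ι (a : ℕ → ℤ) (i : Idx N S) : evI a (FreeAlgebra.ι ℤ i) = a i.1 := by
  rw [evI, FreeAlgebra.lift_ι_apply]

omit [NeZero N] in
/-- action on an eigenvector -/
theorem act_eigen {M : Type*} [AddCommGroup M] (act : FreeAlgebra ℤ (Idx N S) →ₐ[ℤ] Module.End ℤ M)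
    (a : ℕ → ℤ) {c : M} (hc : ∀ i : Idx N S, act (FreeAlgebra.ι ℤ i) c = a i.1 • c)
    (x : FreeAlgebra ℤ (Idx N S)) : act x c = evI a x • c := by
  induction x using FreeAlgebra.induction with
  | grade0 r =>
    rw [AlgHom.commutes, AlgHom.commutes, end_intCast_apply]
    rfl
  | grade1 i => rw [hc, evI_ι]
  | mul x y hx hy =>
    rw [map_mul, map_mul, Module.End.mul_apply, hy, map_zsmul, hx, smul_smul, mul_comm]
  | add x y hx hy => rw [map_add, map_add, LinearMap.add_apply, hx, hy, add_smul]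

/-- **From an eigenclass of order `p` to a residual character of the Hecke algebra.** -/
theorem exists_char_of_eigen (hS : ∀ q : ℕ, q.Prime → q ∣ N → q ∈ S) {p : ℕ} (hp : p.Prime)
    {M : Type*} [AddCommGroup M] (act : FreeAlgebra ℤ (Idx N S) →ₐ[ℤ] Module.End ℤ M)
    (a : ℕ → ℤ) {c : M} (hc0 : c ≠ 0) (hpc : p • c = 0)
    (hc : ∀ i : Idx N S, act (FreeAlgebra.ι ℤ i) c = a i.1 • c)
    (hact : ∀ x : FreeAlgebra ℤ (Idx N S), toHecke hS x = 0 → act x c = 0) :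
    ∃ χ : CuspForm.heckeAlgebra N 2 S →+* ZMod p, ∀ (ℓ : ℕ) (hℓ : ℓ.Prime) (hℓN : ¬ ℓ ∣ N)
      (hℓS : ℓ ∉ S), χ (CuspForm.heckeAlgebra.T hℓ hℓN hℓS) = a ℓ := by
  let g : FreeAlgebra ℤ (Idx N S) →+* ZMod p :=
    (Int.castRingHom (ZMod p)).comp (evI a : FreeAlgebra ℤ (Idx N S) →ₐ[ℤ] ℤ).toRingHom
  have hord : ∀ n : ℤ, n • c = 0 → (n : ZMod p) = 0 := by
    intro n hn
    rw [ZMod.intCast_zmod_eq_zero_iff_dvd]
    by_contra hnd
    have hco : IsCoprime (p : ℤ) n :=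
      (Int.prime_iff_natAbs_prime.mpr (by simpa using hp)).coprime_iff_not_dvd.mpr hnd
    obtain ⟨u, v, huv⟩ := hco
    apply hc0
    have h1 : (u * p + v * n) • c = 0 := by
      rw [add_smul, mul_smul, mul_smul, hn, smul_zero, add_zero, natCast_zsmul, hpc, smul_zero]
    rwa [huv, one_smul] at h1
  let f : FreeAlgebra ℤ (Idx N S) →+* CuspForm.heckeAlgebra N 2 S := (toHecke hS).toRingHom
  have hker : RingHom.ker f ≤ RingHom.ker g := by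
    intro x hx
    have h1 : toHecke hS x = 0 := hx
    have h2 := hact x h1
    rw [act_eigen act a hc] at h2
    exact hord _ h2
  have hf : Function.Surjective f := toHecke_surjective hS
  choose s hs using hf
  let χ := RingHom.liftOfRightInverse f s hs ⟨g, hker⟩
  refine ⟨χ, fun ℓ hℓ hℓN hℓS => ?_⟩
  have h1 : χ (f (FreeAlgebra.ι ℤ ⟨ℓ, hℓ, hℓN, hℓS⟩)) = g (FreeAlgebra.ι ℤ ⟨ℓ, hℓ, hℓN, hℓS⟩) :=
    RingHom.liftOfRightInverse_comp_apply f s hs ⟨g, hker⟩ _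
  have h2 : f (FreeAlgebra.ι ℤ ⟨ℓ, hℓ, hℓN, hℓS⟩) = CuspForm.heckeAlgebra.T hℓ hℓN hℓS :=
    toHecke_ι hS hℓ hℓN hℓS
  rw [h2] at h1
  rw [h1]
  show ((evI a (FreeAlgebra.ι ℤ (⟨ℓ, hℓ, hℓN, hℓS⟩ : Idx N S)) : ℤ) : ZMod p) = _
  rw [evI_ι]

/-- **From a residual character of the Hecke algebra to an eigenform.** -/
theorem exists_eigenform_of_residual {k : Type*} [Field k] {p : ℕ} (hp : p.Prime)
    (hkp : (p : k) = 0) (χ : CuspForm.heckeAlgebra N 2 S →+* k) :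
    ∃ (f : CuspForm (Gamma0 N) 2) (ψ : CuspForm.heckeAlgebra N 2 S →+* integralClosure ℤ ℂ)
      (𝔪 : Ideal (integralClosure ℤ ℂ)), f.IsNormalizedEigenform ∧ 𝔪.IsMaximal ∧
      (p : integralClosure ℤ ℂ) ∈ 𝔪 ∧ (∀ t, ψ t ∈ 𝔪 ↔ χ t = 0) ∧
      ∀ (ℓ : ℕ) (hℓ : ℓ.Prime) (hℓN : ¬ ℓ ∣ N) (hℓS : ℓ ∉ S),
        qCoeff f ℓ = (ψ (CuspForm.heckeAlgebra.T hℓ hℓN hℓS) : ℂ) := by
  have hfin : Module.Finite ℤ (CuspForm.heckeAlgebra N 2 S) :=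
    Fermat.Agent.Period.finite_heckeAlgebra N 2 S
  obtain ⟨ψ, 𝔪, h1, h2, h3⟩ := exists_char_lift (fun n h hn hnh => by
    apply Subtype.ext
    have e1 : (n : ℂ) • (h : Module.End ℂ (CuspForm (Gamma0 N) 2)) = 0 := by
      rw [Int.cast_smul_eq_zsmul]
      exact congrArg Subtype.val hnh
    exact (smul_eq_zero.mp e1).resolve_left (Int.cast_ne_zero.mpr hn)) χ hp hkp
  obtain ⟨f, hf, -, hf2, -⟩ := Fermat.Agent.NewPoint.exists_eigenform_of_char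
    ((algebraMap (integralClosure ℤ ℂ) ℂ).comp ψ)
  exact ⟨f, ψ, 𝔪, hf, h1, h2, h3, hf2⟩

/-- **From a residual character with integral values to an eigenform, congruence form.** -/
theorem exists_eigenform_of_residual_int {k : Type*} [Field k] {p : ℕ} (hp : p.Prime)
    (hkp : (p : k) = 0) (χ : CuspForm.heckeAlgebra N 2 S →+* k) (a : ℕ → ℤ)
    (hχ : ∀ (ℓ : ℕ) (hℓ : ℓ.Prime) (hℓN : ¬ ℓ ∣ N)
      (hℓS : ℓ ∉ S), χ (CuspForm.heckeAlgebra.T hℓ hℓN hℓS) = a ℓ) :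
    ∃ (f : CuspForm (Gamma0 N) 2) (𝔪 : Ideal (integralClosure ℤ ℂ)),
      f.IsNormalizedEigenform ∧ 𝔪.IsMaximal ∧ (p : integralClosure ℤ ℂ) ∈ 𝔪 ∧
      ∀ ℓ : ℕ, ℓ.Prime → ¬ ℓ ∣ N → ℓ ∉ S →
        ∃ b : integralClosure ℤ ℂ, (b : ℂ) = qCoeff f ℓ ∧
          b - ((a ℓ : ℤ) : integralClosure ℤ ℂ) ∈ 𝔪 := by
  obtain ⟨f, ψ, 𝔪, h1, h2, h3, h4, h5⟩ := exists_eigenform_of_residual hp hkp χ
  refine ⟨f, 𝔪, h1, h2, h3, fun ℓ hℓ hℓN hℓS => ⟨ψ (CuspForm.heckeAlgebra.T hℓ hℓN hℓS),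
    (h5 ℓ hℓ hℓN hℓS).symm, ?_⟩⟩
  rw [← map_intCast ψ, ← map_sub, h4, map_sub, hχ, map_intCast, sub_self]

/-- **Eigenclasses of order `p` in `J₀(N)` give eigenforms.** -/
theorem exists_eigenform_of_classJ (hS : ∀ q : ℕ, q.Prime → q ∣ N → q ∈ S) {p : ℕ}
    [hp : Fact p.Prime] (a : ℕ → ℤ) {c : JZero N} (hc0 : c ≠ 0) (hpc : p • c = 0)
    (hc : ∀ (ℓ : ℕ) (hℓ : ℓ.Prime), ¬ ℓ ∣ N → ℓ ∉ S → heckeOperatorBar N ⟨ℓ, hℓ⟩ c = a ℓ • c) :
    ∃ (f : CuspForm (Gamma0 N) 2) (𝔪 : Ideal (integralClosure ℤ ℂ)),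
      f.IsNormalizedEigenform ∧ 𝔪.IsMaximal ∧ (p : integralClosure ℤ ℂ) ∈ 𝔪 ∧
      ∀ ℓ : ℕ, ℓ.Prime → ¬ ℓ ∣ N → ℓ ∉ S →
        ∃ b : integralClosure ℤ ℂ, (b : ℂ) = qCoeff f ℓ ∧
          b - ((a ℓ : ℤ) : integralClosure ℤ ℂ) ∈ 𝔪 := by
  obtain ⟨χ, hχ⟩ := exists_char_of_eigen hS hp.out (actJ N S) a hc0 hpc (fun i => by
    rw [actJ_ι]
    exact hc i.1 i.2.1 i.2.2.1 i.2.2.2) (fun x hx => actJ_eq_zero N S p hS hx (n := 1) (by
      rw [pow_one]; exact hpc))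
  exact exists_eigenform_of_residual_int hp.out (by simp) χ a hχ

/-- **Eigenclasses of order `p` in `Pic⁰` of `X₀(N)` modulo `p` give eigenforms.**
To be applied with `κ` the residue field of `A` and `π` the residue map
(`HeckeRed.exists_of_frobenius` gives `hfr`). -/
theorem exists_eigenform_of_classC_aux (hS : ∀ q : ℕ, q.Prime → q ∣ N → q ∈ S) {p : ℕ}
    [hp : Fact p.Prime] (hpN : ¬ p ∣ N) (hpS : p ∈ S) (A : ValuationSubring (AlgebraicClosure ℚ))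
    (hA : A.LiesOverPrime p) {κ : Type} [Field κ] [IsAlgClosed κ] [CharP κ p] [PerfectRing κ p]
    (π : A →+* κ) [IsLocalHom π] (hπ : Function.Surjective π)
    (hfr : ∀ σ : AlgebraicClosure ℚ ≃ₐ[ℚ] AlgebraicClosure ℚ, A.IsFrobeniusAt σ p →
      ∃ σA : A →+* A, (∀ a : A, σ a = σA a) ∧
      ∀ a : A, frobenius κ p (π a) = π (σA a)) (a : ℕ → ℤ)
    {g : ℤ} (hRR : Deuring.RRLarge (AlgebraicClosure ℚ) (modularFunctionFieldBar N) g)
    (hRR₁ : Deuring.RRLarge κ (modularFunctionFieldFullC κ N) g)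
    {c : Pic0 κ (modularFunctionFieldFullC κ N)} (hc0 : c ≠ 0) (hpc : p • c = 0)
    (hc : ∀ (ℓ : ℕ) (_ : ℓ.Prime) [NeZero ℓ], ¬ ℓ ∣ N → ℓ ∉ S → heckeC κ N ℓ c = a ℓ • c) :
    ∃ (f : CuspForm (Gamma0 N) 2) (𝔪 : Ideal (integralClosure ℤ ℂ)),
      f.IsNormalizedEigenform ∧ 𝔪.IsMaximal ∧ (p : integralClosure ℤ ℂ) ∈ 𝔪 ∧
      ∀ ℓ : ℕ, ℓ.Prime → ¬ ℓ ∣ N → ℓ ∉ S →
        ∃ b : integralClosure ℤ ℂ, (b : ℂ) = qCoeff f ℓ ∧
          b - ((a ℓ : ℤ) : integralClosure ℤ ℂ) ∈ 𝔪 := by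
  have hN : (N : κ) ≠ 0 := fun h => hpN ((CharP.cast_eq_zero_iff _ p N).mp h)
  obtain ⟨r, hr1, hr2⟩ := (dat A π hπ N hN).exists_reduction hRR hRR₁
  have hr : IsReduction (dat A π hπ N hN) r := ⟨hr1, hr2⟩
  obtain ⟨χ, hχ⟩ := exists_char_of_eigen hS hp.out (actC κ N S) a hc0 hpc
    (fun i => by
      have h1 : NeZero i.1 := ⟨i.2.1.ne_zero⟩
      rw [actC_ι]
      exact hc i.1 i.2.1 i.2.2.1 i.2.2.2)
    (fun x hx => actC_eq_zero_aux A π hπ hN hr hA hfr hpS hS hx (n := 1)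
      (by rw [pow_one]; exact hpc))
  exact exists_eigenform_of_residual_int hp.out (by simp) χ a hχ

set_option synthInstance.maxHeartbeats 400000 in
/-- **Eigenclasses of order `p` in `Pic⁰` of `X₀(N)` modulo `p` give eigenforms.** -/
theorem exists_eigenform_of_classC (hS : ∀ q : ℕ, q.Prime → q ∣ N → q ∈ S) {p : ℕ}
    [hp : Fact p.Prime] (hpN : ¬ p ∣ N) (hpS : p ∈ S) (A : ValuationSubring (AlgebraicClosure ℚ))
    (hA : A.LiesOverPrime p) [IsAlgClosed (IsLocalRing.ResidueField A)] (a : ℕ → ℤ)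
    {c : Pic0 (IsLocalRing.ResidueField A)
      (modularFunctionFieldFullC (IsLocalRing.ResidueField A) N)} (hc0 : c ≠ 0) (hpc : p • c = 0)
    (hc : ∀ (ℓ : ℕ) (_ : ℓ.Prime) [NeZero ℓ], ¬ ℓ ∣ N → ℓ ∉ S →
      heckeC (IsLocalRing.ResidueField A) N ℓ c = a ℓ • c) :
    ∃ (f : CuspForm (Gamma0 N) 2) (𝔪 : Ideal (integralClosure ℤ ℂ)),
      f.IsNormalizedEigenform ∧ 𝔪.IsMaximal ∧ (p : integralClosure ℤ ℂ) ∈ 𝔪 ∧
      ∀ ℓ : ℕ, ℓ.Prime → ¬ ℓ ∣ N → ℓ ∉ S →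
        ∃ b : integralClosure ℤ ℂ, (b : ℂ) = qCoeff f ℓ ∧
          b - ((a ℓ : ℤ) : integralClosure ℤ ℂ) ∈ 𝔪 := by
  have i2 : CharP (IsLocalRing.ResidueField A) p := charP_residueField hp.out hA
  have i4 : PerfectRing (IsLocalRing.ResidueField A) p := inferInstance
  have i5 : IsLocalHom (IsLocalRing.residue A) := inferInstance
  have hN : (N : IsLocalRing.ResidueField A) ≠ 0 := fun h =>
    hpN ((CharP.cast_eq_zero_iff _ p N).mp h)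
  obtain ⟨g, hRR, hRR₁⟩ := Fermat.Agent.Cusps.genusEq N A hN
  exact exists_eigenform_of_classC_aux hS hpN hpS A hA (IsLocalRing.residue A)
    IsLocalRing.residue_surjective (fun σ hσ => exists_of_frobenius hσ) a hRR hRR₁ hc0 hpc hc

end Fermat.Agent.PIC
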