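import Mathlib.FieldTheory.IsAlgClosed.Basic
import Mathlib.LinearAlgebra.LinearIndependent.Lemmas
import Mathlib.LinearAlgebra.FiniteDimensional.Basic

/-!
# Lang's theorem for Frobenius-semilinear maps
-/

set_option autoImplicit false

namespace Fermat.Agent.PIC

open Polynomial

section

variable {κ : Type*} [Field κ] (q : ℕ) (a : ℕ → κ)

/-- auxiliary polynomials -/
noncomputable def XP : ℕ → κ[X]
  | 0 => C (a 0) * X ^ q
  | i + 1 => XP i ^ q + C (a (i + 1)) * X ^ q

theorem natDegree_XP (hq : 2 ≤ q) (ha : a 0 ≠ 0) (i : ℕ) : (XP q a i).natDegree = q ^ (i + 1) := by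
  induction i with
  | zero => rw [XP, zero_add, pow_one, natDegree_C_mul_X_pow q _ ha]
  | succ i ih =>
    rw [XP, natDegree_add_eq_left_of_natDegree_lt, natDegree_pow, ih, ← pow_succ']
    rw [natDegree_pow, ih, ← pow_succ']
    refine (natDegree_C_mul_X_pow_le _ _).trans_lt ?_
    calc q = q ^ 1 := (pow_one q).symm
      _ < q ^ (i + 1 + 1) := Nat.pow_lt_pow_right hq (by omega)

theorem dvd_XP (hq : 2 ≤ q) (i : ℕ) : X ^ 2 ∣ XP q a i := by
  have h0 : (X : κ[X]) ^ 2 ∣ X ^ q := pow_dvd_pow _ hq
  induction i with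
  | zero => exact h0.mul_left _
  | succ i ih => exact dvd_add (ih.trans (dvd_pow_self _ (by omega))) (h0.mul_left _)

theorem exists_root [IsAlgClosed κ] (hq : 2 ≤ q) (ha : a 0 ≠ 0) (i : ℕ) :
    ∃ y : κ, y ≠ 0 ∧ (XP q a i).eval y = y := by
  obtain ⟨Z, hZ⟩ := dvd_XP q a hq i
  have hX0 : XP q a i ≠ 0 := by
    intro h
    have := natDegree_XP q a hq ha i
    rw [h, natDegree_zero] at this
    exact (pow_pos (by omega : 0 < q) (i + 1)).ne this
  have hZ0 : Z ≠ 0 := by
    rintro rfl
    exact hX0 (by rw [hZ, mul_zero])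
  have hdeg : (X * Z - 1 : κ[X]).degree ≠ 0 := by
    have h1 : (X * Z : κ[X]).degree = Z.degree + 1 := by rw [mul_comm, degree_mul, degree_X]
    have h2 : (1 : κ[X]).degree < (X * Z).degree := by
      rw [h1, degree_one, degree_eq_natDegree hZ0]
      exact_mod_cast Nat.succ_pos _
    rw [degree_sub_eq_left_of_degree_lt h2]
    intro h
    rw [h, degree_one] at h2
    exact lt_irrefl _ h2
  obtain ⟨y, hy⟩ := IsAlgClosed.exists_root _ hdeg
  have hy' : y * Z.eval y = 1 := by
    have := hy
    rw [IsRoot.def, eval_sub, eval_mul, eval_X, eval_one, sub_eq_zero] at this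
    exact this
  refine ⟨y, ?_, ?_⟩
  · rintro rfl
    rw [zero_mul] at hy'
    exact zero_ne_one hy'
  · rw [hZ, eval_mul, eval_pow, eval_X, sq, mul_assoc, hy', mul_one]

end

variable {κ V : Type*} [Field κ] [IsAlgClosed κ] [AddCommGroup V] [Module κ V]
  [FiniteDimensional κ V]

/-- **Lang's theorem**: an injective `q`-semilinear endomorphism of a nonzero finite dimensional
vector space over an algebraically closed field has a nonzero fixed vector. -/
theorem exists_fixed {q : ℕ} (hq : 2 ≤ q) (φ : V →+ V) (hφ : ∀ (a : κ) (v : V),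
    φ (a • v) = a ^ q • φ v) (hinj : Function.Injective φ) [Nontrivial V] :
    ∃ v : V, v ≠ 0 ∧ φ v = v := by
  classical
  obtain ⟨v, hv⟩ := exists_ne (0 : V)
  let u : ℕ → V := fun i => φ^[i] v
  have hu : ∀ i, u (i + 1) = φ (u i) := fun i => Function.iterate_succ_apply' _ _ _
  let T : ℕ → Submodule κ V := fun n => Submodule.span κ (Set.range fun i : Fin n => u i)
  have hex : ∃ n, u n ∈ T n := by
    by_contra hcon
    push Not at hcon
    have hli : ∀ n, LinearIndependent κ (fun i : Fin n => u i) := by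
      intro n
      induction n with
      | zero => exact linearIndependent_empty_type
      | succ n ih =>
        rw [linearIndependent_finSucc']
        refine ⟨ih, ?_⟩
        simp only [Fin.val_last]
        exact hcon n
    have h1 := (hli (Module.finrank κ V + 1)).fintype_card_le_finrank
    rw [Fintype.card_fin] at h1
    omega
  let n := Nat.find hex
  have hn : u n ∈ T n := Nat.find_spec hex
  have hmin : ∀ m < n, u m ∉ T m := fun m hm => Nat.find_min hex hm
  have hli : ∀ m ≤ n, LinearIndependent κ (fun i : Fin m => u i) := by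
    intro m
    induction m with
    | zero => exact fun _ => linearIndependent_empty_type
    | succ m ih =>
      intro hm
      rw [linearIndependent_finSucc']
      refine ⟨ih (by omega), ?_⟩
      simp only [Fin.val_last]
      exact hmin m (by omega)
  have hn0 : n ≠ 0 := by
    intro h0
    rw [h0] at hn
    have : T 0 = ⊥ := by
      simp only [T]
      rw [Set.range_eq_empty, Submodule.span_empty]
    rw [this, Submodule.mem_bot] at hn
    exact hv hn
  obtain ⟨m, hm⟩ : ∃ m, n = m + 1 := ⟨n - 1, by omega⟩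
  rw [hm] at hn hli hmin
  obtain ⟨c, hc⟩ := (Submodule.mem_span_range_iff_exists_fun κ).mp hn
  let a : ℕ → κ := fun i => if h : i < m + 1 then c ⟨i, h⟩ else 0
  have hca : ∀ i : Fin (m + 1), a i = c i := fun i => by simp only [a]; rw [dif_pos i.2]
  have hsum : u (m + 1) = ∑ i ∈ Finset.range (m + 1), a i • u i := by
    rw [← hc, Finset.sum_range]
    exact Finset.sum_congr rfl fun i _ => by rw [hca]
  have hφsum : ∀ (s : Finset ℕ) (x : ℕ → κ), φ (∑ i ∈ s, x i • u i) =
      ∑ i ∈ s, x i ^ q • u (i + 1) := by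
    intro s x
    rw [map_sum]
    exact Finset.sum_congr rfl fun i _ => by rw [hφ, hu]
  have ha0 : a 0 ≠ 0 := by
    intro h0
    -- extract `q`-th roots
    have hroot : ∀ i, ∃ b : κ, b ^ q = a (i + 1) := fun i =>
      IsAlgClosed.exists_pow_nat_eq _ (by omega)
    choose b hb using hroot
    have h1 : φ (u m) = φ (∑ i ∈ Finset.range m, b i • u i) := by
      rw [← hu, hsum, Finset.sum_range_succ', h0, zero_smul, add_zero, hφsum]
      exact Finset.sum_congr rfl fun i _ => by rw [hb]
    have h2 := hinj h1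
    refine hmin m (Nat.lt_succ_self m) ?_
    rw [h2]
    refine Submodule.sum_mem _ fun i hi => Submodule.smul_mem _ _ ?_
    exact Submodule.subset_span ⟨⟨i, Finset.mem_range.mp hi⟩, rfl⟩
  obtain ⟨y, hy0, hy⟩ := exists_root q a hq ha0 m
  let x : ℕ → κ := fun i => (XP q a i).eval y
  have hx0 : x 0 = a 0 * y ^ q := by
    simp only [x]
    rw [XP, eval_mul, eval_C, eval_pow, eval_X]
  have hxs : ∀ i, x (i + 1) = x i ^ q + a (i + 1) * y ^ q := by
    intro i
    simp only [x]
    rw [XP, eval_add, eval_pow, eval_mul, eval_C, eval_pow, eval_X]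
  have hxm : x m = y := hy
  refine ⟨∑ i ∈ Finset.range (m + 1), x i • u i, ?_, ?_⟩
  · intro h0
    have h1 := (hli (m + 1) le_rfl)
    rw [Fintype.linearIndependent_iff] at h1
    have h2 := h1 (fun i => x i) (by rw [← h0, Finset.sum_range]) (Fin.last m)
    rw [Fin.val_last, hxm] at h2
    exact hy0 h2
  · rw [hφsum, Finset.sum_range_succ, hxm, hsum, Finset.smul_sum, Finset.sum_range_succ' _ m,
      Finset.sum_range_succ' (fun i => x i • u i) m, hx0, ← add_assoc, ← Finset.sum_add_distrib,
      smul_smul, mul_comm (y ^ q) (a 0)]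
    congr 1
    refine Finset.sum_congr rfl fun i _ => ?_
    rw [hxs, add_smul, smul_smul, mul_comm (y ^ q)]

end Fermat.Agent.PIC
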