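import Fermat.Agent.PIC.CharP

/-!
# Relations in the Hecke algebra kill the `p`-power torsion of `Pic⁰` of `X₀(N)` modulo `p`
-/

set_option autoImplicit false

noncomputable section

namespace Fermat.Agent.PIC

open AlgebraicCurve ModularCurve CongruenceSubgroup
open Fermat.Agent.HeckeHom Fermat.Agent.Tate Fermat.Agent.HeckeRed Fermat.Agent.FunField
  Fermat.Agent.ModDeg Fermat.Agent.ModPoly Fermat.Agent.Deuring Fermat.Agent.TorsCmp
  Fermat.Agent.GalJ

variable {N : ℕ} [NeZero N] {p : ℕ} [hp : Fact p.Prime] (hpN : ¬ p ∣ N)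
  (A : ValuationSubring (AlgebraicClosure ℚ)) {κ : Type} [Field κ] [IsAlgClosed κ] [CharP κ p]
  [PerfectRing κ p]
  (π : A →+* κ) [IsLocalHom π] (hπ : Function.Surjective π) (hN : (N : κ) ≠ 0)
  {r : Place (AlgebraicClosure ℚ) (laurentBaseChange (AlgebraicClosure ℚ)
    (modularFunctionFieldFull N)) → Place κ (modularFunctionFieldFullC κ N)}
  (hr : IsReduction (dat A π hπ N hN) r) {S : Set ℕ}

/-- The semilinear Frobenius of the modular curve over `κ` -/
abbrev frobC (κ : Type) [Field κ] (N : ℕ) [NeZero N] (p : ℕ) [Fact p.Prime] [CharP κ p]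
    [PerfectRing κ p] : SemilinearAut κ (modularFunctionFieldFullC κ N) :=
  frobAut (modularFunctionFieldFullC κ N) (full_stable N) p

omit [IsAlgClosed κ] in
theorem frobC_algebraMap (a : κ) :
    frobC κ N p • algebraMap κ (modularFunctionFieldFullC κ N) a = algebraMap κ _ (a ^ p) := by
  rw [SemilinearAut.smul_algebraMap]
  rfl

omit [IsAlgClosed κ] in
theorem frobC_jF : frobC κ N p • jF κ N = jF κ N := by
  apply Subtype.ext
  rw [coe_frobAut_smul]
  exact coeffMap_jqModC _

omit [IsAlgClosed κ] in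
theorem frobC_pow_algebraMap (m : ℕ) (a : κ) :
    frobC κ N p ^ m • algebraMap κ (modularFunctionFieldFullC κ N) a =
      algebraMap κ _ (a ^ (p ^ m)) := by
  induction m with
  | zero => rw [pow_zero, one_smul, pow_zero, pow_one]
  | succ m ih => rw [pow_succ', mul_smul, ih, frobC_algebraMap, ← pow_mul, ← pow_succ]

omit [IsAlgClosed κ] in
theorem frobC_pow_jF (m : ℕ) : frobC κ N p ^ m • jF κ N = jF κ N := by
  induction m with
  | zero => rw [pow_zero, one_smul]
  | succ m ih => rw [pow_succ', mul_smul, ih, frobC_jF]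

/-- The group of classes fixed by a power of Frobenius is finite. -/
theorem finite_fixedC (m : ℕ) (hm : 0 < m) :
    {s : Pic0 κ (modularFunctionFieldFullC κ N) | frobC κ N p ^ m • s = s}.Finite := by
  refine finite_fixed_classes (frobC κ N p ^ m) (q := p ^ m) ?_ (frobC_pow_algebraMap m)
    (transcendental_jF κ N) (frobC_pow_jF m)
  calc 2 ≤ p := hp.out.two_le
    _ = p ^ 1 := (pow_one p).symm
    _ ≤ p ^ m := Nat.pow_le_pow_right hp.out.pos hm

section Abs

/-- the abstract argument: an element of `p`-power order which is infinitely divisible by `p` in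
a finite group vanishes -/
theorem eq_zero_of_divisible {X : Type*} [AddCommGroup X] (H : AddSubgroup X) [Finite H] {c : X}
    {n : ℕ} (hc : p ^ n • c = 0) (h : ∀ k : ℕ, ∃ s ∈ H, c = p ^ k • s) : c = 0 := by
  have hcard : Nat.card H ≠ 0 := Nat.card_pos.ne'
  obtain ⟨e, b, hb, hcb⟩ := Nat.exists_eq_pow_mul_and_not_dvd hcard p hp.out.ne_one
  obtain ⟨s, hs, rfl⟩ := h e
  have h1 : Nat.card H • s = 0 := by
    have h2 : Nat.card H • (⟨s, hs⟩ : H) = 0 := card_nsmul_eq_zero'
    exact congrArg Subtype.val h2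
  have h2 : b • (p ^ e • s) = 0 := by rw [← mul_smul, mul_comm, ← hcb, h1]
  have hco : Nat.Coprime (p ^ n) b := Nat.Coprime.pow_left n
    ((Nat.Prime.coprime_iff_not_dvd hp.out).mpr hb)
  have h3 : addOrderOf (p ^ e • s) = 1 := by
    have := Nat.dvd_gcd (addOrderOf_dvd_of_nsmul_eq_zero hc) (addOrderOf_dvd_of_nsmul_eq_zero h2)
    rw [hco] at this
    exact Nat.dvd_one.mp this
  exact AddMonoid.addOrderOf_eq_one_iff.mp h3

end Abs

/-- fixed classes as a subgroup -/
def fixC (κ : Type) [Field κ] [IsAlgClosed κ] (N : ℕ) [NeZero N] (p : ℕ) [Fact p.Prime] [CharP κ p]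
    [PerfectRing κ p] (m : ℕ) : AddSubgroup (Pic0 κ (modularFunctionFieldFullC κ N)) where
  carrier := {s | frobC κ N p ^ m • s = s}
  zero_mem' := smul_zero _
  add_mem' := fun {a b} ha hb => by
    show frobC κ N p ^ m • (a + b) = a + b
    rw [smul_add]
    exact congrArg₂ (· + ·) ha hb
  neg_mem' := fun {a} ha => by
    show frobC κ N p ^ m • (-a) = -a
    rw [smul_neg]
    exact congrArg _ ha

include hr in
/-- **Main theorem**: relations in the Hecke algebra kill the `p`-power torsion of `Pic⁰`. -/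
theorem actC_eq_zero_aux (hA : A.LiesOverPrime p)
    (hfr : ∀ σ : AlgebraicClosure ℚ ≃ₐ[ℚ] AlgebraicClosure ℚ, A.IsFrobeniusAt σ p →
      ∃ σA : A →+* A, (∀ a : A, σ a = σA a) ∧
      ∀ a : A, frobenius κ p (π a) = π (σA a))
    (hpS : p ∈ S) (hS : ∀ q : ℕ, q.Prime → q ∣ N → q ∈ S) {a : FreeAlgebra ℤ (Idx N S)}
    (ha : toHecke hS a = 0) {c : Pic0 κ (modularFunctionFieldFullC κ N)} {n : ℕ}
    (hc : p ^ n • c = 0) : actC κ N S a c = 0 := by
  obtain ⟨y, hy⟩ := spHom_surjective hr c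
  change JZero N at y
  obtain ⟨E, hE, hEy⟩ := level_JZero N y
  have hgal : IsGalois ℚ (AlgebraicClosure ℚ) :=
    have : Normal ℚ (AlgebraicClosure ℚ) := IsAlgClosure.normal ℚ (AlgebraicClosure ℚ)
    {}
  obtain ⟨σ₀, hσ₀⟩ := Fermat.Agent.Frob.exists_isFrobeniusAt hp.out hA
  obtain ⟨m, hm, hmE⟩ := exists_pow_fixes E σ₀
  have hσy : (σ₀ ^ m) • y = y := hEy _ hmE
  -- Frobenius on the specialization
  obtain ⟨σA, hσ1, hσ2⟩ := hfr σ₀ hσ₀
  have hsp : ∀ x : JZero N, spHom hr (σ₀ • x) = frobC κ N p • spHom hr x := fun x =>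
    spHom_galois A π hπ N hN hr σ₀ (frobC κ N p) σA _ hσ1 hσ2 (coe_frobAut_smul _ (full_stable N) p)
      x
  have hsp' : ∀ (j : ℕ) (x : JZero N), spHom hr ((σ₀ ^ j) • x) = frobC κ N p ^ j • spHom hr x := by
    intro j
    induction j with
    | zero =>
      intro x
      rw [pow_zero, pow_zero]
      exact (congrArg (spHom hr) (one_smul _ x)).trans (one_smul _ _).symm
    | succ j ih =>
      intro x
      rw [pow_succ', pow_succ', mul_smul (frobC κ N p)]
      have h1 : (σ₀ * σ₀ ^ j) • x = σ₀ • ((σ₀ ^ j) • x) := mul_smul σ₀ (σ₀ ^ j) x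
      exact (congrArg (spHom hr) h1).trans ((hsp _).trans (congrArg _ (ih x)))
  -- the divisibility
  have hpow : ∀ k : ℕ, ∃ y' : JZero N, p ^ k • y' = y := by
    intro k
    induction k with
    | zero => exact ⟨y, by rw [pow_zero, one_smul]⟩
    | succ k ih =>
      obtain ⟨y', hy'⟩ := ih
      obtain ⟨y'', hy''⟩ := exists_p_smul (L := AlgebraicClosure ℚ) iotaQbar N p y'
      refine ⟨y'', ?_⟩
      have h2 : p • (y'' : JZero N) = y' := hy''
      rw [pow_succ, mul_smul, h2, hy']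
  have hfin : Finite (fixC κ N p m) := (finite_fixedC (κ := κ) (N := N) (p := p) m hm).to_subtype
  refine eq_zero_of_divisible (p := p) (fixC κ N p m) (n := n) ?_ ?_
  · rw [← map_nsmul, hc, map_zero]
  · intro k
    obtain ⟨y', hy'⟩ := hpow k
    have hz : ∀ x : JZero N, ∀ j : ℕ, (σ₀ ^ m) • (j • x) = j • ((σ₀ ^ m) • x) := fun x j =>
      map_nsmul (DistribSMul.toAddMonoidHom (JZero N) (σ₀ ^ m)) j x
    have h1 : p ^ k • ((σ₀ ^ m) • y' - y') = 0 := by
      rw [nsmul_sub, ← hz, hy', hσy, sub_self]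
    have h2 : actJ N S a ((σ₀ ^ m) • y' - y') = 0 := actJ_eq_zero N S p hS ha h1
    have h3 : (σ₀ ^ m) • actJ N S a y' = actJ N S a y' := by
      rw [map_sub, actJ_smul, sub_eq_zero] at h2
      exact h2
    refine ⟨spHom hr (actJ N S a y'), ?_, ?_⟩
    · show frobC κ N p ^ m • spHom hr (actJ N S a y') = spHom hr (actJ N S a y')
      rw [← hsp']
      exact congrArg (spHom hr) h3
    · rw [← hy]
      have h4 : actC κ N S a (spHom hr y) = spHom hr (actJ N S a y) :=
        (spHom_act A π hπ hN hr hpS a y).symm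
      rw [h4]
      have h5 : actJ N S a y = p ^ k • actJ N S a y' := by rw [← map_nsmul, hy']
      exact (congrArg (spHom hr) h5).trans (map_nsmul (spHom hr) _ _)

end Fermat.Agent.PIC
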